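import Fermat.Agent.S19.Defs
import Fermat.Agent.GES.IntSmall

set_option autoImplicit false
set_option linter.unusedSectionVars false

/-!
# S19 / RED : API of `GInt`, `IntA`, `Close`
-/

namespace Fermat.Agent.S19.RED

open AlgebraicCurve ModularCurve Polynomial
open Fermat.Agent.S24 (Kb FN IsFF1 jF)
open Fermat.Agent.S18 (IntA SmallA)
open Fermat.Agent.DIV (valAt valOpt)

variable {N : ℕ} [NeZero N]

/-- (reduce mod `𝔪_A`: `k_A((q))` is a domain; see `S18/Red.lean`, `S18/Wire.lean` for the reduction map.) -/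
theorem not_smallA_mul (A : ValuationSubring Kb) {a b : LaurentSeries Kb} (ha : IntA A a) (hb : IntA A b)
    (ha' : ¬ SmallA A a) (hb' : ¬ SmallA A b) : ¬ SmallA A (a * b) :=
  Fermat.Agent.GES.not_smallA_mul ha hb ha' hb'

theorem intA_mul (A : ValuationSubring Kb) {a b : LaurentSeries Kb} (ha : IntA A a) (hb : IntA A b) :
    IntA A (a * b) :=
  Fermat.Agent.GES.IntA.mul ha hb

theorem not_smallA_one (A : ValuationSubring Kb) : ¬ SmallA A (1 : LaurentSeries Kb) := by
  intro h
  have h0 := h 0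
  rw [HahnSeries.coeff_one, if_pos rfl] at h0
  exact ((ValuationSubring.mem_nonunits_iff A).1 h0).ne (map_one _)

theorem gInt_mul (A : ValuationSubring Kb) {u v : FN N} (hu : GInt A u) (hv : GInt A v) :
    GInt A (u * v) := by
  obtain ⟨a, b, ha, hb, hb', e⟩ := hu
  obtain ⟨a', b', ha', hb2, hb2', e'⟩ := hv
  refine ⟨a * a', b * b', intA_mul A ha ha', intA_mul A hb hb2, not_smallA_mul A hb hb2 hb' hb2', ?_⟩
  rw [← e, ← e']
  ring

theorem gInt_add (A : ValuationSubring Kb) {u v : FN N} (hu : GInt A u) (hv : GInt A v) :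
    GInt A (u + v) := by
  obtain ⟨a, b, ha, hb, hb', e⟩ := hu
  obtain ⟨a', b', ha', hb2, hb2', e'⟩ := hv
  refine ⟨a * b' + a' * b, b * b',
    Fermat.Agent.GES.IntA.add (intA_mul A ha hb2) (intA_mul A ha' hb), intA_mul A hb hb2,
    not_smallA_mul A hb hb2 hb' hb2', ?_⟩
  rw [← e, ← e']
  ring

theorem gInt_of_intA (A : ValuationSubring Kb) {u : FN N} (hu : IntA A u.1) : GInt A u :=
  ⟨u, 1, hu, Fermat.Agent.GES.IntA.one, not_smallA_one A, mul_one u⟩

/-- a Laurent series over a domain whose lowest coefficient is a unit is a unit. -/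
theorem isUnit_of_coeff {R : Type*} [CommRing R] [IsDomain R] (y : LaurentSeries R) (n : ℤ)
    (h1 : IsUnit (y.coeff n)) (h2 : ∀ k < n, y.coeff k = 0) : IsUnit y := by
  have hne : y.coeff n ≠ 0 := h1.ne_zero
  have hy : y ≠ 0 := by
    rintro rfl
    exact hne HahnSeries.coeff_zero
  have hle : y.order ≤ n := HahnSeries.order_le_of_coeff_ne_zero hne
  have hord : y.order = n := by
    rcases hle.lt_or_eq with h | h
    · exact absurd (h2 _ h) (HahnSeries.coeff_order_eq_zero.not.2 hy)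
    · exact h
  rw [HahnSeries.isUnit_iff, HahnSeries.leadingCoeff_eq, hord]
  exact h1

/-- the inverse of an `A`-integral series whose lowest coefficient is `1`. -/
theorem intA_inv (A : ValuationSubring Kb) {x : LaurentSeries Kb} (hx : IntA A x) (n : ℤ)
    (h1 : x.coeff n = 1) (h2 : ∀ k < n, x.coeff k = 0) : IntA A x⁻¹ := by
  obtain ⟨y, rfl⟩ := Fermat.Agent.S18.exists_incA_eq hx
  have hu : IsUnit y := by
    refine isUnit_of_coeff y n ?_ ?_
    · have : y.coeff n = 1 := by
        apply Subtype.ext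
        rw [coeffMap_coeff] at h1
        exact h1
      rw [this]
      exact isUnit_one
    · intro k hk
      have := h2 k hk
      rw [coeffMap_coeff] at this
      exact Subtype.ext this
  obtain ⟨y', hy'⟩ := hu.exists_right_inv
  have h3 : Fermat.Agent.S18.incA A y * Fermat.Agent.S18.incA A y' = 1 := by
    rw [← map_mul, hy', map_one]
  rw [← eq_inv_of_mul_eq_one_right h3]
  exact Fermat.Agent.S18.intA_incA A y'

theorem coe_jF' : ((jF N : FN N) : LaurentSeries Kb) = jqModC Kb :=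
  Fermat.Agent.S24.degree_Jser_one

theorem intA_jq (A : ValuationSubring Kb) : IntA A (jqModC Kb) := by
  intro n
  rw [coeff_jqModC_eq_intCast]
  exact intCast_mem A _

theorem coe_const (z : Kb) :
    ((algebraMap Kb (FN N) z : FN N) : LaurentSeries Kb) = HahnSeries.C z := by
  have h1 : ((algebraMap Kb (FN N) z : FN N) : LaurentSeries Kb) =
      algebraMap Kb (LaurentSeries Kb) z := rfl
  rw [h1, algebraMap_laurentSeries_eq_single]
  rfl

theorem intA_const (A : ValuationSubring Kb) {z : Kb} (hz : z ∈ A) :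
    IntA A (algebraMap Kb (FN N) z : FN N).1 := by
  intro n
  rw [coe_const, HahnSeries.C_apply, HahnSeries.coeff_single]
  split_ifs
  · exact hz
  · exact A.zero_mem

theorem intA_jF (A : ValuationSubring Kb) : IntA A (jF N : FN N).1 := by
  have e : (jF N : FN N).1 = jqModC Kb := coe_jF'
  rw [e]
  exact intA_jq A

theorem intA_jF_inv (A : ValuationSubring Kb) : IntA A ((jF N)⁻¹ : FN N).1 := by
  have e : ((jF N)⁻¹ : FN N).1 = (jqModC Kb)⁻¹ := by
    rw [← coe_jF' (N := N)]
    rfl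
  rw [e]
  exact intA_inv A (intA_jq A) (-1) (coeff_jqModC_neg_one Kb) (fun k hk => coeff_jqModC_of_lt Kb hk)

/-- `j` and `1/j` have integral `q`-expansions. -/
theorem intA_aeval (A : ValuationSubring Kb) (t : FN N) (ht : t = jF N ∨ t = (jF N)⁻¹) (θ : Kb[X])
    (hθ : ∀ k, θ.coeff k ∈ A) : IntA A (aeval t θ : FN N).1 := by
  have htA : IntA A t.1 := by
    rcases ht with rfl | rfl
    · exact intA_jF A
    · exact intA_jF_inv A
  rw [aeval_eq_sum_range]
  have key : ∀ s : Finset ℕ, IntA A (∑ i ∈ s, θ.coeff i • t ^ i : FN N).1 := by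
    intro s
    induction s using Finset.induction_on with
    | empty =>
      rw [Finset.sum_empty]
      intro n
      exact A.zero_mem
    | insert a s ha ih =>
      rw [Finset.sum_insert ha]
      refine Fermat.Agent.GES.IntA.add ?_ ih
      rw [Algebra.smul_def]
      exact intA_mul A (intA_const A (hθ a)) (Fermat.Agent.GES.IntA.pow htA a)
  exact key _

/-- `j - z` is a unit of `A((q))` (`HahnSeries.isUnit_iff`: the leading coefficient is `1`). -/
theorem intA_of_mul_sub (A : ValuationSubring Kb) (u : FN N) (z : Kb) (hz : z ∈ A)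
    (h : IntA A (u * (jF N - algebraMap Kb (FN N) z)).1) : IntA A u.1 := by
  set x : LaurentSeries Kb := (jF N - algebraMap Kb (FN N) z : FN N).1 with hx
  have hxe : x = jqModC Kb - HahnSeries.C z := by
    rw [hx, ← coe_jF' (N := N), ← coe_const (N := N)]
    rfl
  have hxA : IntA A x := Fermat.Agent.GES.IntA.sub (intA_jF A) (intA_const A hz)
  have h1 : x.coeff (-1) = 1 := by
    rw [hxe, HahnSeries.coeff_sub, coeff_jqModC_neg_one, HahnSeries.C_apply,
      HahnSeries.coeff_single, if_neg (by norm_num), sub_zero]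
  have h2 : ∀ k < (-1 : ℤ), x.coeff k = 0 := by
    intro k hk
    rw [hxe, HahnSeries.coeff_sub, coeff_jqModC_of_lt Kb hk, HahnSeries.C_apply,
      HahnSeries.coeff_single, if_neg (by omega), sub_zero]
  have hinv := intA_inv A hxA (-1) h1 h2
  have hx0 : x ≠ 0 := by
    intro h0
    rw [h0, HahnSeries.coeff_zero] at h1
    exact zero_ne_one h1
  have e : u.1 = (u * (jF N - algebraMap Kb (FN N) z) : FN N).1 * x⁻¹ := by
    have : (u * (jF N - algebraMap Kb (FN N) z) : FN N).1 = u.1 * x := rfl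
    rw [this, mul_assoc, mul_inv_cancel₀ hx0, mul_one]
  rw [e]
  exact intA_mul A h hinv

theorem close_refl (A : ValuationSubring Kb) (a : Option Kb) : Close A a a := by
  rcases a with _ | a
  · exact trivial
  · by_cases ha : a ∈ A
    · refine Or.inr ⟨ha, ha, ?_⟩
      rw [sub_self, ValuationSubring.mem_nonunits_iff, map_zero]
      exact zero_lt_one
    · exact Or.inl ⟨ha, ha⟩

/-- `x ∈ ℙ¹(ℚ̄)` reduces to `∞`. -/
def AtInf (A : ValuationSubring Kb) : Option Kb → Prop
  | none => True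
  | some b => b ∉ A

theorem close_of_atInf (A : ValuationSubring Kb) {x y : Option Kb} (hx : AtInf A x)
    (hy : AtInf A y) : Close A x y := by
  rcases x with _ | a <;> rcases y with _ | b
  · exact trivial
  · exact hy
  · exact hx
  · exact Or.inl ⟨hx, hy⟩

theorem jF_ne_zero : (jF N : FN N) ≠ 0 := by
  intro h0
  exact Fermat.Agent.S24.transcendental_jF N (h0 ▸ isAlgebraic_zero)

theorem inv_not_mem_of_mem_nonunits (A : ValuationSubring Kb) {z : Kb} (hz : z ∈ A.nonunits)
    (hz0 : z ≠ 0) : z⁻¹ ∉ A := by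
  intro h
  rw [ValuationSubring.mem_nonunits_iff] at hz
  rw [← ValuationSubring.valuation_le_one_iff, map_inv₀] at h
  have h0 : A.valuation z ≠ 0 := (_root_.map_ne_zero _).2 hz0
  have h1 : (1 : A.ValueGroup) ≤ A.valuation z := by
    have := (inv_le_one₀ (zero_lt_iff.2 h0)).1 h
    exact this
  exact absurd hz (not_lt.2 h1)

theorem inv_mem_nonunits_of_not_mem (A : ValuationSubring Kb) {a : Kb} (ha : a ∉ A) :
    a⁻¹ ∈ A.nonunits := by
  rw [ValuationSubring.mem_nonunits_iff, map_inv₀]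
  rw [← ValuationSubring.valuation_le_one_iff, not_le] at ha
  exact inv_lt_one_of_one_lt₀ ha

/-- the value of `1/j`. -/
theorem valAt_inv (Z : Place Kb (FN N)) {f : FN N} (hf : valAt (hFF N) Z f ≠ 0) :
    valAt (hFF N) Z f⁻¹ = (valAt (hFF N) Z f)⁻¹ := by
  have hmem : f ∈ Z.toValuationSubring := by
    by_contra hn
    exact hf (dif_neg hn)
  have hf0 : f ≠ 0 := by
    rintro rfl
    exact hf (Fermat.Agent.DIV.valAt_zero _ _)
  have h1 := Fermat.Agent.DIV.valAt_mul (hFF N) Z hmem
    (Fermat.Agent.DIV.inv_mem_of_valAt_ne_zero (hFF N) Z hf)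
  rw [mul_inv_cancel₀ hf0, Fermat.Agent.DIV.valAt_one] at h1
  exact eq_inv_of_mul_eq_one_right h1.symm

theorem atInf_of_nonunits (A : ValuationSubring Kb) (Z : Place Kb (FN N))
    (h0 : 0 ≤ Z.ord (jF N)⁻¹) (h1 : valAt (hFF N) Z (jF N)⁻¹ ∈ A.nonunits) :
    AtInf A (jv N Z) := by
  rw [Z.ord_inv] at h0
  rcases hv : jv N Z with _ | b
  · exact trivial
  · obtain ⟨hm, hb⟩ := (Fermat.Agent.DIV.valOpt_eq_some_iff _ _).1 hv
    have hord : Z.ord (jF N) = 0 := by
      have := Fermat.Agent.S24.ord_nonneg_of_mem Z hm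
      omega
    have hb0 : b ≠ 0 := by
      intro hb0
      rw [hb0] at hb
      have := (Fermat.Agent.DIV.valAt_eq_zero_iff (hFF N) Z hm jF_ne_zero).1 hb
      omega
    rw [valAt_inv Z (by rw [hb]; exact hb0), hb] at h1
    have := inv_not_mem_of_mem_nonunits A h1 (inv_ne_zero hb0)
    rwa [inv_inv] at this

theorem chart_of_atInf (A : ValuationSubring Kb) (P : Place Kb (FN N)) (h : AtInf A (jv N P)) :
    (jF N)⁻¹ ∈ P.toValuationSubring ∧ valAt (hFF N) P (jF N)⁻¹ ∈ A.nonunits := by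
  rcases hv : jv N P with _ | a
  · have h1 : P.ord (jF N) < 0 := (Fermat.Agent.DIV.valOpt_eq_none_iff _ _).1 hv
    have h2 : 0 < P.ord (jF N)⁻¹ := by
      rw [P.ord_inv]
      omega
    have hm : (jF N)⁻¹ ∈ P.toValuationSubring := Fermat.Agent.S24.mem_of_ord_nonneg P h2.le
    refine ⟨hm, ?_⟩
    rw [(Fermat.Agent.DIV.valAt_eq_zero_iff (hFF N) P hm (inv_ne_zero jF_ne_zero)).2 h2,
      ValuationSubring.mem_nonunits_iff, map_zero]
    exact zero_lt_one
  · rw [hv] at h
    have ha : a ∉ A := h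
    obtain ⟨hm, hb⟩ := (Fermat.Agent.DIV.valOpt_eq_some_iff _ _).1 hv
    have ha0 : a ≠ 0 := by
      rintro rfl
      exact ha A.zero_mem
    have hne : valAt (hFF N) P (jF N) ≠ 0 := by rw [hb]; exact ha0
    refine ⟨Fermat.Agent.DIV.inv_mem_of_valAt_ne_zero (hFF N) P hne, ?_⟩
    rw [valAt_inv P hne, hb]
    exact inv_mem_nonunits_of_not_mem A ha

/-- the chart: `t = j` or `1/j`, finite at `P` with value in `A`, and farness in terms of `t`. -/
theorem exists_chart (A : ValuationSubring Kb) (P : Place Kb (FN N)) :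
    ∃ t : FN N, (t = jF N ∨ t = (jF N)⁻¹) ∧ t ∈ P.toValuationSubring ∧ valAt (hFF N) P t ∈ A ∧
      ∀ Z : Place Kb (FN N), ¬ Close A (jv N P) (jv N Z) → 0 ≤ Z.ord t →
        valAt (hFF N) Z t ∉ A ∨ valAt (hFF N) P t - valAt (hFF N) Z t ∉ A.nonunits := by
  by_cases hP : AtInf A (jv N P)
  · obtain ⟨hm, hτ⟩ := chart_of_atInf A P hP
    refine ⟨(jF N)⁻¹, Or.inr rfl, hm, ValuationSubring.nonunits_subset hτ, ?_⟩
    intro Z hfar hZ
    right
    intro hd
    apply hfar
    refine close_of_atInf A hP (atInf_of_nonunits A Z hZ ?_)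
    have h1 := Fermat.Agent.S54.nonunits_add A hτ (Fermat.Agent.S54.nonunits_neg A hd)
    have e : valAt (hFF N) P (jF N)⁻¹ + -(valAt (hFF N) P (jF N)⁻¹ - valAt (hFF N) Z (jF N)⁻¹) =
        valAt (hFF N) Z (jF N)⁻¹ := by ring
    rwa [e] at h1
  · rcases hv : jv N P with _ | a
    · rw [hv] at hP
      exact absurd trivial hP
    · rw [hv] at hP
      have ha : a ∈ A := not_not.1 hP
      obtain ⟨hm, hb⟩ := (Fermat.Agent.DIV.valOpt_eq_some_iff _ _).1 hv
      refine ⟨jF N, Or.inl rfl, hm, hb ▸ ha, ?_⟩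
      intro Z hfar hZ
      have hmZ : jF N ∈ Z.toValuationSubring := Fermat.Agent.S24.mem_of_ord_nonneg Z hZ
      have hvZ : jv N Z = some (valAt (hFF N) Z (jF N)) :=
        (Fermat.Agent.DIV.valOpt_eq_some_iff _ _).2 ⟨hmZ, rfl⟩
      by_cases hz : valAt (hFF N) Z (jF N) ∈ A
      · right
        intro hd
        apply hfar
        rw [hvZ]
        rw [hb] at hd
        exact Or.inr ⟨ha, hz, hd⟩
      · exact Or.inl hz

end Fermat.Agent.S19.RED
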