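import Fermat.Agent.DIV.Val

set_option autoImplicit false

/-!
# S19 / RED : clearing the poles by a primitive polynomial; evaluation of an integral equation at a place

`K` algebraically closed of characteristic `0`, `A` a valuation subring of `K`, `F / K` a function field.
-/

namespace Fermat.Agent.S19.RED

open AlgebraicCurve Fermat.Agent.S24 Fermat.Agent.DIV Polynomial
open scoped Polynomial.Bivariate

variable {K F : Type*} [Field K] [Field F] [Algebra K F] [IsAlgClosed K] [CharZero K]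

/-- the set of poles of `u` is finite (`S24.finite_ord_pos` for `u⁻¹`; constants have no poles). -/
theorem finite_poles (h : IsFF1 K F) (u : F) : {Z : Place K F | Z.ord u < 0}.Finite := by
  by_cases hu : u ∈ Set.range (algebraMap K F)
  · obtain ⟨a, rfl⟩ := hu
    convert Set.finite_empty (α := Place K F)
    ext Z
    simp only [Set.mem_ofPred_eq, Set.mem_empty_iff_false, iff_false, not_lt]
    rw [ord_algebraMap]
  · exact (finite_valOpt_eq h (transcendental_of_not_mem_range hu) none).subset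
      fun Z hZ => (valOpt_eq_none_iff h Z).2 hZ

omit [IsAlgClosed K] [CharZero K] in
/-- polynomials with coefficients in `A`. -/
theorem mem_liftsRing_iff (A : ValuationSubring K) (p : K[X]) :
    p ∈ liftsRing A.subtype ↔ ∀ k, p.coeff k ∈ A := by
  rw [← lifts_iff_liftsRing, lifts_iff_coeff_lifts]
  refine forall_congr' fun k => ?_
  constructor
  · rintro ⟨a, ha⟩
    rw [← ha]
    exact a.2
  · intro hk
    exact ⟨⟨_, hk⟩, rfl⟩

omit [IsAlgClosed K] [CharZero K] in
theorem C_mem_liftsRing (A : ValuationSubring K) {a : K} (ha : a ∈ A) :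
    (C a : K[X]) ∈ liftsRing A.subtype :=
  (lifts_iff_liftsRing _ _).1 (C_mem_lifts A.subtype ⟨a, ha⟩)

omit [IsAlgClosed K] [CharZero K] in
theorem X_mem_liftsRing (A : ValuationSubring K) : (X : K[X]) ∈ liftsRing A.subtype :=
  (lifts_iff_liftsRing _ _).1 (X_mem_lifts A.subtype)

omit [IsAlgClosed K] [CharZero K] in
theorem valuation_eq_one_iff_mem (A : ValuationSubring K) (x : K) :
    A.valuation x = 1 ↔ x ∈ A ∧ x ∉ A.nonunits := by
  rw [← A.valuation_le_one_iff, A.mem_nonunits_iff, not_lt]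
  exact ⟨fun h => ⟨h.le, h.ge⟩, fun h => le_antisymm h.1 h.2⟩

omit [CharZero K] in
/-- one place: a factor `l ^ n` of `θ` with `l (t(Z)) = 0` kills a pole of order `≤ n`. -/
theorem ord_mul_aeval_nonneg (h : IsFF1 K F) (t u : F) (Z : Place K F) (hZt : 0 ≤ Z.ord t)
    (θ l : K[X]) (n : ℕ) (hθ : l ^ n ∣ θ) (hl : l.eval (valAt h Z t) = 0) (hn : - Z.ord u ≤ n) :
    0 ≤ Z.ord (u * aeval t θ) := by
  have htm : t ∈ Z.toValuationSubring := mem_of_ord_nonneg Z hZt
  by_cases hu : u = 0
  · rw [hu, zero_mul, Place.ord_zero]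
  by_cases h0 : aeval t θ = 0
  · rw [h0, mul_zero, Place.ord_zero]
  obtain ⟨r, rfl⟩ := hθ
  rw [map_mul, map_pow] at h0 ⊢
  have hl0 : aeval t l ^ n ≠ 0 := left_ne_zero_of_mul h0
  have hr0 : aeval t r ≠ 0 := right_ne_zero_of_mul h0
  rw [Place.ord_mul Z hu h0, Place.ord_mul Z hl0 hr0, ord_pow]
  have h1 : 0 ≤ Z.ord (aeval t r) := ord_nonneg_of_mem Z (aeval_mem Z htm r)
  rcases Nat.eq_zero_or_pos n with rfl | hn0
  · simp only [Nat.cast_zero, zero_mul] at hn ⊢
    omega
  have hl1 : aeval t l ≠ 0 := fun h2 => hl0 (by rw [h2, zero_pow hn0.ne'])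
  have h2 : 0 < Z.ord (aeval t l) := by
    rw [← valAt_eq_zero_iff h Z (aeval_mem Z htm l) hl1, valAt_aeval h Z htm, hl]
  have h3 : (n : ℤ) ≤ n * Z.ord (aeval t l) := by
    nlinarith
  omega

open Classical in
/-- the local factor. -/
noncomputable def lam (A : ValuationSubring K) (z : K) : K[X] :=
  if z ∈ A then X - C z else 1 - C z⁻¹ * X

omit [IsAlgClosed K] [CharZero K] in
theorem lam_eval_self (A : ValuationSubring K) (z : K) : (lam A z).eval z = 0 := by
  unfold lam
  split_ifs with hz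
  · simp
  · have hz0 : z ≠ 0 := fun h0 => hz (h0 ▸ zero_mem A)
    simp [hz0]

omit [IsAlgClosed K] [CharZero K] in
theorem lam_mem (A : ValuationSubring K) (z : K) : lam A z ∈ liftsRing A.subtype := by
  unfold lam
  split_ifs with hz
  · exact sub_mem (X_mem_liftsRing A) (C_mem_liftsRing A hz)
  · exact sub_mem (one_mem _)
      (mul_mem (C_mem_liftsRing A ((A.mem_or_inv_mem z).resolve_left hz)) (X_mem_liftsRing A))

omit [IsAlgClosed K] [CharZero K] in
theorem lam_eval_far (A : ValuationSubring K) (z τ : K) (hτ : τ ∈ A)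
    (hfar : z ∉ A ∨ τ - z ∉ A.nonunits) : A.valuation ((lam A z).eval τ) = 1 := by
  unfold lam
  split_ifs with hz
  · rw [eval_sub, eval_X, eval_C, valuation_eq_one_iff_mem]
    exact ⟨sub_mem hτ hz, hfar.resolve_left (not_not.2 hz)⟩
  · rw [eval_sub, eval_one, eval_mul, eval_C, eval_X]
    apply Valuation.map_one_sub_of_lt
    have h1 : 1 < A.valuation z := by
      rw [← not_le, A.valuation_le_one_iff]
      exact hz
    have h2 : A.valuation τ ≤ 1 := (A.valuation_le_one_iff τ).2 hτ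
    have h3 : A.valuation z⁻¹ < 1 := by
      rw [map_inv₀]
      exact inv_lt_one_of_one_lt₀ h1
    rw [map_mul]
    exact mul_lt_one_of_lt_of_le h3 h2

/-- **pole clearing** (for `L1`).  `θ = (∏_Z λ_Z) ^ n`, the product over the poles `Z` of `u` with `t(Z) = z` finite,
`λ_Z = X - z` if `z ∈ A`, `λ_Z = 1 - z⁻¹ X` if `z ∉ A`; `n` larger than all the pole orders. -/
theorem exists_theta (A : ValuationSubring K) (h : IsFF1 K F) (t u : F) (τ : K) (hτ : τ ∈ A)
    (hfar : ∀ Z : Place K F, Z.ord u < 0 → 0 ≤ Z.ord t →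
      valAt h Z t ∉ A ∨ τ - valAt h Z t ∉ A.nonunits) :
    ∃ θ : K[X], (∀ k, θ.coeff k ∈ A) ∧ θ.eval τ ∈ A ∧ θ.eval τ ∉ A.nonunits ∧
      ∀ Z : Place K F, 0 ≤ Z.ord t → 0 ≤ Z.ord (u * aeval t θ) := by
  classical
  set S : Finset (Place K F) := (finite_poles h u).toFinset.filter (fun Z => 0 ≤ Z.ord t) with hS
  have hmem : ∀ Z, Z ∈ S ↔ Z.ord u < 0 ∧ 0 ≤ Z.ord t := by
    intro Z
    rw [hS, Finset.mem_filter, Set.Finite.mem_toFinset]
    rfl
  refine ⟨∏ Z ∈ S, lam A (valAt h Z t) ^ (- Z.ord u).toNat, ?_, ?_⟩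
  · rw [← mem_liftsRing_iff]
    exact prod_mem fun Z _ => pow_mem (lam_mem A _) _
  · rw [← and_assoc, ← valuation_eq_one_iff_mem]
    refine ⟨?_, ?_⟩
    · rw [eval_prod, map_prod]
      refine Finset.prod_eq_one fun Z hZ => ?_
      rw [eval_pow, map_pow, lam_eval_far A _ τ hτ (hfar Z ((hmem Z).1 hZ).1 ((hmem Z).1 hZ).2),
        one_pow]
    · intro Z hZt
      by_cases hZu : Z.ord u < 0
      · exact ord_mul_aeval_nonneg h t u Z hZt _ (lam A (valAt h Z t)) (- Z.ord u).toNat
          (Finset.dvd_prod_of_mem (fun Z => lam A (valAt h Z t) ^ (- Z.ord u).toNat)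
            ((hmem Z).2 ⟨hZu, hZt⟩)) (lam_eval_self A _) (Int.self_le_toNat _)
      · exact ord_mul_aeval_nonneg h t u Z hZt _ (lam A (valAt h Z t)) 0
          (by rw [pow_zero]; exact one_dvd _) (lam_eval_self A _) (by simp; omega)

/-- **pole clearing** (for `Q-INT`): all the finite poles have `t`-value in `A`. -/
theorem exists_theta_monic (A : ValuationSubring K) (h : IsFF1 K F) (t u : F)
    (hint : ∀ Z : Place K F, Z.ord u < 0 → 0 ≤ Z.ord t → valAt h Z t ∈ A) :
    ∃ s : Multiset K, (∀ z ∈ s, z ∈ A) ∧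
      ∀ Z : Place K F, 0 ≤ Z.ord t → 0 ≤ Z.ord (u * aeval t (s.map fun z => X - C z).prod) := by
  classical
  set S : Finset (Place K F) := (finite_poles h u).toFinset.filter (fun Z => 0 ≤ Z.ord t) with hS
  have hmem : ∀ Z, Z ∈ S ↔ Z.ord u < 0 ∧ 0 ≤ Z.ord t := by
    intro Z
    rw [hS, Finset.mem_filter, Set.Finite.mem_toFinset]
    rfl
  refine ⟨S.val.bind fun Z => Multiset.replicate (- Z.ord u).toNat (valAt h Z t), ?_, ?_⟩
  · intro z hz
    rw [Multiset.mem_bind] at hz
    obtain ⟨Z, hZ, hz⟩ := hz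
    rw [Multiset.eq_of_mem_replicate hz]
    exact hint Z ((hmem Z).1 hZ).1 ((hmem Z).1 hZ).2
  · have hprod : ((S.val.bind fun Z => Multiset.replicate (- Z.ord u).toNat (valAt h Z t)).map
        fun z => (X - C z : K[X])).prod = ∏ Z ∈ S, (X - C (valAt h Z t)) ^ (- Z.ord u).toNat := by
      rw [Multiset.map_bind, Multiset.prod_bind]
      simp only [Multiset.map_replicate, Multiset.prod_replicate]
      rfl
    rw [hprod]
    intro Z hZt
    by_cases hZu : Z.ord u < 0
    · exact ord_mul_aeval_nonneg h t u Z hZt _ (X - C (valAt h Z t)) (- Z.ord u).toNat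
        (Finset.dvd_prod_of_mem (fun Z => (X - C (valAt h Z t) : K[X]) ^ (- Z.ord u).toNat)
          ((hmem Z).2 ⟨hZu, hZt⟩)) (by simp) (Int.self_le_toNat _)
    · exact ord_mul_aeval_nonneg h t u Z hZt _ (X - C (valAt h Z t)) 0
        (by rw [pow_zero]; exact one_dvd _) (by simp) (by simp; omega)

omit [IsAlgClosed K] [CharZero K] in
/-- a root in `K` of a monic polynomial with coefficients in `A` is in `A`. -/
theorem mem_of_monic_root (A : ValuationSubring K) (m : K[X]) (hm : m.Monic)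
    (hmA : ∀ k, m.coeff k ∈ A) (ω : K) (hω : m.eval ω = 0) : ω ∈ A := by
  have hl : m ∈ lifts A.subtype := (lifts_iff_liftsRing _ _).2 ((mem_liftsRing_iff A m).2 hmA)
  obtain ⟨q, hq1, -, hq2⟩ := lifts_and_natDegree_eq_and_monic hl hm
  have hint : IsIntegral A ω := ⟨q, hq2, by
    rw [← hq1, eval_map] at hω
    exact hω⟩
  obtain ⟨y, hy⟩ := IsIntegrallyClosed.isIntegral_iff.1 hint
  rw [← hy]
  exact y.2

omit [IsAlgClosed K] [CharZero K] in
theorem eval_mem_of_coeff_mem (A : ValuationSubring K) (p : K[X]) (hp : ∀ k, p.coeff k ∈ A)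
    {τ : K} (hτ : τ ∈ A) : p.eval τ ∈ A := by
  rw [eval_eq_sum_range]
  exact sum_mem fun i _ => mul_mem (hp i) (pow_mem hτ i)

/-- **evaluation**: a root of a monic polynomial over `A[t]` has its value in `A` where `t` has. -/
theorem valAt_mem_of_monic (A : ValuationSubring K) (h : IsFF1 K F) (P : Place K F) (t w : F)
    (ht : t ∈ P.toValuationSubring) (hτ : valAt h P t ∈ A) (M : K[X][Y]) (hM : M.Monic)
    (hMA : ∀ i k, (M.coeff i).coeff k ∈ A) (h0 : aevalAeval t w M = 0) :
    w ∈ P.toValuationSubring ∧ valAt h P w ∈ A := by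
  have hw : w ∈ P.toValuationSubring := by
    refine mem_of_monic_root P.toValuationSubring
      (M.map ((aeval t : K[X] →ₐ[K] F) : K[X] →+* F)) (hM.map _) ?_ w ?_
    · intro k
      rw [coeff_map]
      exact aeval_mem P ht _
    · rw [eval_map, ← h0]
      clear h0 hM hMA
      induction M using Polynomial.induction_on with
      | C a => rw [aevalAeval_C, eval₂_C]; rfl
      | add p q hp hq => rw [map_add, ← hp, ← hq, eval₂_add]
      | monomial n a _ =>
        rw [map_mul, aevalAeval_C, map_pow, aevalAeval_Y, eval₂_mul, eval₂_C, eval₂_pow, eval₂_X]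
        rfl
  refine ⟨hw, ?_⟩
  refine mem_of_monic_root A (M.map (evalRingHom (valAt h P t))) (hM.map _) ?_ _ ?_
  · intro k
    rw [coeff_map]
    exact eval_mem_of_coeff_mem A _ (hMA k) hτ
  · rw [map_evalRingHom_eval, ← valAt_aevalAeval h P ht hw, h0, valAt_zero]

end Fermat.Agent.S19.RED
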