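import Fermat.Agent.S19.RED.Core
import Fermat.Agent.S19.RED.Theta
import Fermat.Agent.S19.RED.GIntApi

set_option autoImplicit false
set_option linter.unusedSectionVars false

/-!
# S19 / RED : `L1Statement`, `QIntStatement`
-/

namespace Fermat.Agent.S19.RED

open AlgebraicCurve ModularCurve Polynomial
open Fermat.Agent.S24 (Kb FN IsFF1 jF)
open Fermat.Agent.S18 (IntA SmallA)
open Fermat.Agent.DIV (valAt valOpt)
open scoped Polynomial.Bivariate

variable {N : ℕ} [NeZero N] {ℓ : ℕ}

/-- an element of `A` which is not in the maximal ideal is a unit. -/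
theorem inv_mem_of_not_mem_nonunits (A : ValuationSubring Kb) {a : Kb} (ha : a ∈ A)
    (ha' : a ∉ A.nonunits) : a⁻¹ ∈ A := by
  rw [ValuationSubring.mem_nonunits_iff, not_lt] at ha'
  rw [← ValuationSubring.valuation_le_one_iff] at ha ⊢
  rw [map_inv₀, le_antisymm ha ha', inv_one]

theorem l1 (hℓ : ℓ.Prime) (hℓN : ¬ ℓ ∣ N) : L1Statement N ℓ := by
  intro A hA u hu P hfar
  obtain ⟨t, ht, htP, hτ, hch⟩ := exists_chart A P
  obtain ⟨θ, hθA, hθτ, hθu, hθp⟩ := exists_theta A (hFF N) t u (valAt (hFF N) P t) hτ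
    (fun Z hZ hZt => hch Z (hfar Z hZ) hZt)
  have hw : GInt A (u * aeval t θ) := gInt_mul A hu (gInt_of_intA A (intA_aeval A t ht θ hθA))
  obtain ⟨⟨M, hM, hMA, hM0⟩, -⟩ := core hℓ hℓN A hA _ t ht hw hθp
  obtain ⟨hwP, hwA⟩ := valAt_mem_of_monic A (hFF N) P t _ htP hτ M hM hMA hM0
  have huP : u ∈ P.toValuationSubring := by
    rw [Fermat.Agent.S24.mem_iff_ord_nonneg]
    by_contra hneg
    exact hfar P (not_le.1 hneg) (close_refl A _)
  rw [Fermat.Agent.DIV.valAt_mul _ _ huP (Fermat.Agent.DIV.aeval_mem P htP θ),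
    Fermat.Agent.DIV.valAt_aeval _ _ htP] at hwA
  have hinv := inv_mem_of_not_mem_nonunits A hθτ hθu
  have h0 : θ.eval (valAt (hFF N) P t) ≠ 0 := by
    intro h0
    apply hθu
    rw [h0, ValuationSubring.mem_nonunits_iff, map_zero]
    exact zero_lt_one
  have e : valAt (hFF N) P u =
      valAt (hFF N) P u * θ.eval (valAt (hFF N) P t) * (θ.eval (valAt (hFF N) P t))⁻¹ := by
    rw [mul_assoc, mul_inv_cancel₀ h0, mul_one]
  rw [e]
  exact A.mul_mem _ _ hwA hinv

theorem ord_oo_jF_neg : (oo N).ord (jF N) < 0 := by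
  obtain ⟨c, hc, h⟩ := exists_oo_ord N
  have h1 := h _ (jF_ne_zero (N := N))
  have h2 : (jF N).1.order = -1 := by
    have e : (jF N : FN N).1 = jqModC Kb := coe_jF'
    rw [e]
    have h3 : (jqModC Kb) ≠ 0 := by
      intro h0
      have := coeff_jqModC_neg_one Kb
      rw [h0, HahnSeries.coeff_zero] at this
      exact zero_ne_one this
    have hle : (jqModC Kb).order ≤ -1 := HahnSeries.order_le_of_coeff_ne_zero (by
      rw [coeff_jqModC_neg_one]; exact one_ne_zero)
    rcases hle.lt_or_eq with h | h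
    · exact absurd (coeff_jqModC_of_lt Kb h) (HahnSeries.coeff_order_eq_zero.not.2 h3)
    · exact h
  rw [h2] at h1
  by_contra hn
  have : 0 ≤ c * (oo N).ord (jF N) := mul_nonneg hc.le (not_lt.1 hn)
  omega

theorem aeval_prod_cons (t : FN N) (z : Kb) (s : Multiset Kb) :
    aeval t ((z ::ₘ s).map fun z => (X - C z : Kb[X])).prod =
      (t - algebraMap Kb (FN N) z) * aeval t (s.map fun z => (X - C z : Kb[X])).prod := by
  rw [Multiset.map_cons, Multiset.prod_cons, map_mul, map_sub, aeval_X, aeval_C]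

theorem intA_aeval_prod (A : ValuationSubring Kb) (s : Multiset Kb) (hs : ∀ z ∈ s, z ∈ A) :
    IntA A (aeval (jF N) (s.map fun z => (X - C z : Kb[X])).prod : FN N).1 := by
  induction s using Multiset.induction_on with
  | empty =>
    rw [Multiset.map_zero, Multiset.prod_zero, map_one]
    exact Fermat.Agent.GES.IntA.one
  | cons z s ih =>
    rw [aeval_prod_cons]
    exact intA_mul A (Fermat.Agent.GES.IntA.sub (intA_jF A)
      (intA_const A (hs z (Multiset.mem_cons_self z s))))
      (ih fun y hy => hs y (Multiset.mem_cons_of_mem hy))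

theorem intA_of_mul_aeval_prod (A : ValuationSubring Kb) (s : Multiset Kb) (hs : ∀ z ∈ s, z ∈ A) :
    ∀ u : FN N, IntA A (u * aeval (jF N) (s.map fun z => (X - C z : Kb[X])).prod : FN N).1 →
      IntA A u.1 := by
  induction s using Multiset.induction_on with
  | empty =>
    intro u hu
    rwa [Multiset.map_zero, Multiset.prod_zero, map_one, mul_one] at hu
  | cons z s ih =>
    intro u hu
    rw [aeval_prod_cons, ← mul_assoc] at hu
    exact intA_of_mul_sub A u z (hs z (Multiset.mem_cons_self z s))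
      (ih (fun y hy => hs y (Multiset.mem_cons_of_mem hy)) _ hu)

theorem qint (hℓ : ℓ.Prime) (hℓN : ¬ ℓ ∣ N) : QIntStatement N ℓ := by
  intro A hA u hu hpole
  obtain ⟨s, hs, hsp⟩ := exists_theta_monic A (hFF N) (jF N) u (by
    intro Z hZ hZj
    rcases hpole Z hZ with rfl | ⟨a, ha, hv⟩
    · exact absurd hZj (not_le.2 ord_oo_jF_neg)
    · obtain ⟨-, hb⟩ := (Fermat.Agent.DIV.valOpt_eq_some_iff _ _).1 hv
      rw [hb]
      exact ha)
  have hw : GInt A (u * aeval (jF N) (s.map fun z => (X - C z : Kb[X])).prod) :=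
    gInt_mul A hu (gInt_of_intA A (intA_aeval_prod A s hs))
  obtain ⟨-, hI⟩ := core hℓ hℓN A hA _ (jF N) (Or.inl rfl) hw hsp
  exact intA_of_mul_aeval_prod A s hs u hI

end Fermat.Agent.S19.RED
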