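import Fermat.Agent.S19.RED.PoleInt

set_option autoImplicit false
set_option linter.style.haveILetI false

/-!
# S19 / RED : the abstract lemma

`R ⊆ K` a valuation ring, `F / K(t)` algebraic, `(Ω, O)` an algebraically closed valued field, `ι : F → Ω`
inducing the Gauss valuation on `K(t)`.  If `w ∈ F` is integral over `K[t]` and all its conjugates lie
in `O` then `w` is integral over `R[t]`.
-/

namespace Fermat.Agent.S19.RED

open Polynomial
open scoped Polynomial.Bivariate


/-- the coefficients of a product of `X - ρ`, `ρ ∈ O`, lie in `O`. -/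
theorem coeff_prod_mem {Ω : Type*} [Field Ω] (O : ValuationSubring Ω) (s : Multiset Ω)
    (hs : ∀ ρ ∈ s, ρ ∈ O) (k : ℕ) : ((s.map fun ρ => (X - C ρ : Polynomial Ω)).prod).coeff k ∈ O := by
  have key : ∀ p ∈ s.map (fun ρ => (X - C ρ : Polynomial Ω)), ∀ k, p.coeff k ∈ O := by
    intro p hp k
    obtain ⟨ρ, hρ, rfl⟩ := Multiset.mem_map.1 hp
    rw [coeff_sub, coeff_X, coeff_C]
    refine sub_mem ?_ ?_
    · split_ifs
      · exact one_mem _
      · exact zero_mem _
    · split_ifs
      · exact hs ρ hρ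
      · exact zero_mem _
  refine Multiset.prod_induction (fun p : Polynomial Ω => ∀ k, p.coeff k ∈ O) _ ?_ ?_ key k
  · intro p q hp hq k
    rw [coeff_mul]
    exact sum_mem fun x _ => mul_mem (hp _) (hq _)
  · intro k
    rw [coeff_one]
    split_ifs
    · exact one_mem _
    · exact zero_mem _

/-- **Gauss step**: `O ∩ K[t] = R[t]`. -/
theorem coeff_mem_of_gauss {K F Ω : Type*} [Field K] [Field F] [Algebra K F] [Field Ω]
    (R : ValuationSubring K) (O : ValuationSubring Ω) (ι : F →+* Ω) (t : F)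
    (hnon : ∀ r ∈ R.nonunits, ι (algebraMap K F r) ∈ O.nonunits)
    (hG : ∀ Q : K[X], (∀ k, Q.coeff k ∈ R) → ι (aeval t Q) ∈ O.nonunits → ∀ k, Q.coeff k ∈ R.nonunits)
    (c : K[X]) (hc : ι (aeval t c) ∈ O) (k : ℕ) : c.coeff k ∈ R := by
  by_contra hk
  have hk0 : c.coeff k ≠ 0 := fun h => hk (h ▸ zero_mem _)
  have hsupp : c.support.Nonempty := ⟨k, mem_support_iff.2 hk0⟩
  obtain ⟨k₀, hk₀, hmax⟩ := c.support.exists_max_image (fun i => R.valuation (c.coeff i)) hsupp
  set a := c.coeff k₀ with ha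
  have ha0 : a ≠ 0 := mem_support_iff.1 hk₀
  have haR : a ∉ R := by
    intro haR
    apply hk
    rw [← R.valuation_le_one_iff] at haR ⊢
    exact (hmax k (mem_support_iff.2 hk0)).trans haR
  have hainv : a⁻¹ ∈ R.nonunits := by
    rw [ValuationSubring.mem_nonunits_iff, map_inv₀]
    have h1 : 1 < R.valuation a := by
      rw [← not_le, R.valuation_le_one_iff]
      exact haR
    exact inv_lt_one_of_one_lt₀ h1
  set Q : K[X] := C a⁻¹ * c with hQ
  have hQR : ∀ i, Q.coeff i ∈ R := by
    intro i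
    rw [hQ, coeff_C_mul]
    by_cases hi : c.coeff i = 0
    · rw [hi, mul_zero]; exact zero_mem _
    · rw [← R.valuation_le_one_iff, map_mul, map_inv₀]
      have h1 := hmax i (mem_support_iff.2 hi)
      have h2 : R.valuation a ≠ 0 := (Valuation.ne_zero_iff _).2 ha0
      rw [inv_mul_le_iff₀ (zero_lt_iff.2 h2), mul_one]
      exact h1
  have hQO : ι (aeval t Q) ∈ O.nonunits := by
    rw [hQ, map_mul, aeval_C, map_mul]
    have h1 := hnon _ hainv
    rw [ValuationSubring.mem_nonunits_iff] at h1 ⊢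
    rw [map_mul]
    calc O.valuation (ι (algebraMap K F a⁻¹)) * O.valuation (ι (aeval t c))
        ≤ O.valuation (ι (algebraMap K F a⁻¹)) * 1 := by
          gcongr
          exact (O.valuation_le_one_iff _).2 hc
      _ < 1 := by rw [mul_one]; exact h1
  have h3 := hG Q hQR hQO k₀
  rw [hQ, coeff_C_mul, ← ha, inv_mul_cancel₀ ha0, ValuationSubring.mem_nonunits_iff, map_one] at h3
  exact lt_irrefl _ h3

theorem al {K F Ω : Type*} [Field K] [Field F] [Algebra K F] [Field Ω] [IsAlgClosed Ω]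
    (R : ValuationSubring K) (O : ValuationSubring Ω) (ι : F →+* Ω) (t w : F)
    (ht : Transcendental K t)
    (halg : ∀ y : F, ∃ p : K[X][Y], p ≠ 0 ∧ aevalAeval t y p = 0)
    (hnon : ∀ r ∈ R.nonunits, ι (algebraMap K F r) ∈ O.nonunits)
    (hG : ∀ Q : K[X], (∀ k, Q.coeff k ∈ R) → ι (aeval t Q) ∈ O.nonunits → ∀ k, Q.coeff k ∈ R.nonunits)
    (hU : ∀ σ : F →+* Ω, (∀ c : K, σ (algebraMap K F c) = ι (algebraMap K F c)) → σ t = ι t →
      σ w ∈ O)
    (hI : ∃ M : K[X][Y], M.Monic ∧ aevalAeval t w M = 0) :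
    ∃ M : K[X][Y], M.Monic ∧ (∀ i k, (M.coeff i).coeff k ∈ R) ∧ aevalAeval t w M = 0 := by
  letI : Algebra K[X] F := (aeval t : K[X] →ₐ[K] F).toRingHom.toAlgebra
  have hmap : ∀ c : K[X], algebraMap K[X] F c = aeval t c := fun _ => rfl
  haveI : FaithfulSMul K[X] F :=
    (faithfulSMul_iff_algebraMap_injective _ _).2 (transcendental_iff_injective.1 ht)
  letI : Algebra (FractionRing K[X]) F := FractionRing.liftAlgebra K[X] F
  haveI : IsScalarTower K[X] (FractionRing K[X]) F := FractionRing.isScalarTower_liftAlgebra K[X] F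
  letI : Algebra (FractionRing K[X]) Ω := (ι.comp (algebraMap (FractionRing K[X]) F)).toAlgebra
  have hmapΩ : ∀ e : FractionRing K[X], algebraMap (FractionRing K[X]) Ω e =
      ι (algebraMap (FractionRing K[X]) F e) := fun _ => rfl
  have hint : IsIntegral K[X] w := by
    obtain ⟨M, hM, hM0⟩ := hI
    exact ⟨M, hM, by rw [← hM0, aevalAeval_eq_eval₂]; rfl⟩
  have halg1 : Algebra.IsAlgebraic K[X] F := ⟨fun y => by
    obtain ⟨p, hp, hp0⟩ := halg y
    exact ⟨p, hp, by rw [← hp0, aevalAeval_eq_eval₂]; rfl⟩⟩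
  have halg2 : Algebra.IsAlgebraic (FractionRing K[X]) F :=
    (IsFractionRing.comap_isAlgebraic_iff (A := K[X]) (K := FractionRing K[X]) (C := F)).1 halg1
  set m := minpoly K[X] w with hm
  have hmm : m.Monic := minpoly.monic hint
  have hmin : minpoly (FractionRing K[X]) w = m.map (algebraMap K[X] (FractionRing K[X])) :=
    minpoly.isIntegrallyClosed_eq_field_fractions' (FractionRing K[X]) hint
  refine ⟨m, hmm, ?_, ?_⟩
  · -- the image of `m` in `Polynomial Ω`
    set mΩ : Polynomial Ω := m.map (ι.comp (algebraMap K[X] F)) with hmΩ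
    have hmΩ' : mΩ = (minpoly (FractionRing K[X]) w).map (algebraMap (FractionRing K[X]) Ω) := by
      rw [hmin, Polynomial.map_map, hmΩ]
      congr 1
      refine RingHom.ext fun c => ?_
      simp only [RingHom.comp_apply]
      rw [hmapΩ, ← IsScalarTower.algebraMap_apply K[X] (FractionRing K[X]) F]
    have hmΩm : mΩ.Monic := hmm.map _
    have hsplit : mΩ.Splits := IsAlgClosed.splits mΩ
    have hroots : ∀ ρ ∈ mΩ.roots, ρ ∈ O := by
      intro ρ hρ
      have hρ0 : aeval ρ (minpoly (FractionRing K[X]) w) = 0 := by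
        have := (mem_roots hmΩm.ne_zero).1 hρ
        rw [IsRoot.def, hmΩ', eval_map_algebraMap] at this
        exact this
      obtain ⟨φ, hφ⟩ := IntermediateField.exists_algHom_of_splits_of_aeval
        (F := FractionRing K[X]) (E := F) (K := Ω)
        (fun s => ⟨(halg2.isAlgebraic s).isIntegral, IsAlgClosed.splits _⟩) hρ0
      rw [← hφ]
      have hφc : ∀ c : K[X], φ (aeval t c) = ι (aeval t c) := by
        intro c
        rw [← hmap, IsScalarTower.algebraMap_apply K[X] (FractionRing K[X]) F, φ.commutes, hmapΩ]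
      refine hU φ.toRingHom (fun c => ?_) ?_
      · have := hφc (C c)
        rwa [aeval_C] at this
      · have := hφc X
        rwa [aeval_X] at this
    have hcoeffO : ∀ i, mΩ.coeff i ∈ O := by
      intro i
      rw [hsplit.eq_prod_roots_of_monic hmΩm]
      exact coeff_prod_mem O _ hroots i
    intro i k
    refine coeff_mem_of_gauss R O ι t hnon hG (m.coeff i) ?_ k
    have := hcoeffO i
    rwa [hmΩ, coeff_map] at this
  · rw [aevalAeval_eq_eval₂]
    exact minpoly.aeval K[X] w

open IntermediateField in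
open scoped IntermediateField.algebraAdjoinAdjoin in
/-- algebraic over `K(t)` ⟹ root of a nonzero polynomial over `K[t]`. -/
theorem exists_poly_of_isAlgebraic {K F : Type*} [Field K] [Field F] [Algebra K F] (t : F)
    (halg : Algebra.IsAlgebraic K⟮t⟯ F) (y : F) :
    ∃ p : K[X][Y], p ≠ 0 ∧ aevalAeval t y p = 0 := by
  have h1 : Algebra.IsAlgebraic (Algebra.adjoin K {t}) F :=
    (IsFractionRing.comap_isAlgebraic_iff (A := Algebra.adjoin K {t}) (K := K⟮t⟯) (C := F)).mpr halg
  obtain ⟨p, hp, hp0⟩ := h1.isAlgebraic y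
  let g : K[X] →ₐ[K] Algebra.adjoin K {t} :=
    (aeval t : K[X] →ₐ[K] F).codRestrict (Algebra.adjoin K {t})
      (fun p => aeval_mem_adjoin_singleton K t)
  have hsurj : Function.Surjective g.toRingHom := by
    rintro ⟨y, hy⟩
    rw [Algebra.adjoin_singleton_eq_range_aeval] at hy
    obtain ⟨p, hp⟩ := hy
    exact ⟨p, Subtype.ext hp⟩
  obtain ⟨q, hq⟩ := Polynomial.map_surjective g.toRingHom hsurj p
  refine ⟨q, ?_, ?_⟩
  · rintro rfl
    exact hp (by rw [← hq, Polynomial.map_zero])
  · rw [aevalAeval_eq_eval₂, ← hp0, ← hq, aeval_def, eval₂_map]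
    rfl

end Fermat.Agent.S19.RED
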