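import Fermat.Agent.S19.RED.AL
import Fermat.Agent.S18.V.UniqueDiv
import Fermat.Agent.S18.V.EmbJ
import Fermat.Agent.S18.VSide
import Fermat.Agent.S18.B.Trans

set_option autoImplicit false
set_option linter.unusedSectionVars false

/-!
# S19 / RED : leaves (K0), (K1), (K4) of `CoreK`
-/

noncomputable section

namespace Fermat.Agent.S19.RED.KA

open ModularCurve Polynomial IntermediateField
open Fermat.Agent.S18.V
open scoped Polynomial.Bivariate

/-- (K0) `j = q⁻¹ + ⋯` is not constant. -/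
theorem transcendental_jK (K : Type) [Field K] (N : ℕ) : Transcendental K (jK K N) := by
  intro h
  have h1 : IsAlgebraic K ((jK K N : ↥(FK K N)) : LaurentSeries K) :=
    h.algebraMap (A := LaurentSeries K)
  obtain ⟨c, hc⟩ := Fermat.Agent.S18.trans_const _ h1
  have h2 : ((jK K N : ↥(FK K N)) : LaurentSeries K) = jqModC K := rfl
  rw [h2, algebraMap_laurentSeries_eq_single] at hc
  have h3 := congrArg (fun s => HahnSeries.coeff s (-1)) hc
  simp only [coeff_jqModC_neg_one] at h3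
  rw [HahnSeries.coeff_single_of_ne (by norm_num)] at h3
  exact zero_ne_one h3

variable {K : Type} [Field K] [CharZero K] (R : ValuationSubring K) [IsDiscreteValuationRing R]
  {N : ℕ} [NeZero N] {ℓ : ℕ} [Fact ℓ.Prime]

theorem evF_mem_adjoin (Q : (↥R)[X]) : Unique.evF (↥R) K N Q ∈ K⟮jK K N⟯ := by
  rw [Unique.evF, coe_eval₂RingHom, eval₂_eq_sum_range]
  refine sum_mem fun k _ => mul_mem ?_ (pow_mem (mem_adjoin_simple_self K _) _)
  exact K⟮jK K N⟯.algebraMap_mem _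

theorem isAlgebraic_of_BR (hℓR : ¬ IsUnit (ℓ : R)) {f : LaurentSeries K}
    (hf : f ∈ BR (↥R) K N ℓ) :
    IsAlgebraic K⟮jK K N⟯ (⟨f, BR_le_FK hf⟩ : ↥(FK K N)) := by
  obtain ⟨P, hP, hPf⟩ := BR_integral (N := N) hℓR hf
  have h0 : eval₂ (Unique.evF (↥R) K N) (⟨f, BR_le_FK hf⟩ : ↥(FK K N)) P = 0 := by
    apply Subtype.ext
    have h1 := hom_eval₂ P (Unique.evF (↥R) K N) (algebraMap ↥(FK K N) (LaurentSeries K))
      ⟨f, BR_le_FK hf⟩
    rw [Unique.val_comp_evF] at h1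
    exact h1.trans hPf
  let e : (↥R)[X] →+* K⟮jK K N⟯ :=
    (Unique.evF (↥R) K N).codRestrict K⟮jK K N⟯.toSubfield.toSubring (evF_mem_adjoin R)
  refine ⟨P.map e, (hP.map e).ne_zero, ?_⟩
  rw [aeval_def, eval₂_map]
  have : (algebraMap K⟮jK K N⟯ ↥(FK K N)).comp e = Unique.evF (↥R) K N := RingHom.ext fun _ => rfl
  rw [this, h0]

/-- (K1) `F_K` is algebraic over `K(j)`. -/
theorem isAlgebraic_FK (hℓR : ¬ IsUnit (ℓ : R)) : Algebra.IsAlgebraic K⟮jK K N⟯ ↥(FK K N) := by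
  refine ⟨fun y => ?_⟩
  obtain ⟨c, hc, d, hd, hd0, h⟩ := BR_frac (R := ↥R) (ℓ := ℓ) y.2
  have hc' := isAlgebraic_of_BR R hℓR hc
  have hd' := isAlgebraic_of_BR R hℓR hd
  have hd1 : (⟨d, BR_le_FK hd⟩ : ↥(FK K N)) ≠ 0 := fun h0 => hd0 (congrArg Subtype.val h0)
  have e : y = ⟨c, BR_le_FK hc⟩ * (⟨d, BR_le_FK hd⟩ : ↥(FK K N))⁻¹ := by
    rw [eq_mul_inv_iff_mul_eq₀ hd1]
    exact Subtype.ext h
  rw [e]
  exact hc'.mul hd'.inv

/-- the series `t ∈ R((q))`. -/
theorem exists_tR (t : ↥(FK K N)) (ht : t = jK K N ∨ t = (jK K N)⁻¹) :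
    ∃ tR : LaurentSeries (↥R), cR (↥R) K tR = t.1 := by
  rcases ht with rfl | rfl
  · exact ⟨jqModC (↥R), Fermat.Agent.S28.coeffMap_jq _⟩
  · refine ⟨Fermat.Agent.S28.jInv (↥R), ?_⟩
    rw [Fermat.Agent.S28.coeffMap_jInv]
    have h1 : ((jK K N)⁻¹ : ↥(FK K N)).1 = (jqModC K)⁻¹ := rfl
    rw [h1]
    exact eq_inv_of_mul_eq_one_right (Fermat.Agent.S28.jq_mul_jInv K)

theorem exists_cR_of_coeff (a : LaurentSeries K) (ha : ∀ n, a.coeff n ∈ R) :
    ∃ y : LaurentSeries (↥R), cR (↥R) K y = a := by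
  refine ⟨⟨fun n => ⟨a.coeff n, ha n⟩, ?_⟩, ?_⟩
  · refine a.isPWO_support.mono ?_
    intro n hn
    simp only [Function.mem_support, ne_eq] at hn ⊢
    intro h
    exact hn (Subtype.ext h)
  · ext n
    rw [coeffMap_coeff]
    rfl

/-- (K4) integral over `R[t]` + quotient of integral series ⟹ integral series. -/
theorem coeff_mem_of_monic (t w a b : ↥(FK K N)) (ht : t = jK K N ∨ t = (jK K N)⁻¹)
    (ha : ∀ n, a.1.coeff n ∈ R) (hb : ∀ n, b.1.coeff n ∈ R) (hb0 : b ≠ 0) (hwab : w * b = a)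
    (M : K[X][Y]) (hM : M.Monic) (hMR : ∀ i k, (M.coeff i).coeff k ∈ R)
    (h0 : aevalAeval t w M = 0) : ∀ n, w.1.coeff n ∈ R := by
  obtain ⟨tR, htR⟩ := exists_tR R t ht
  obtain ⟨ya, hya⟩ := exists_cR_of_coeff R a.1 ha
  obtain ⟨yb, hyb⟩ := exists_cR_of_coeff R b.1 hb
  have hyb0 : yb ≠ 0 := by
    rintro rfl
    rw [map_zero] at hyb
    exact hb0 (Subtype.ext hyb.symm)
  rw [aevalAeval_eq_eval₂] at h0
  have hint : (cR (↥R) K).IsIntegralElem w.1 := by
    let a : (↥R)[X] →+* ↥(FK K N) :=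
      (aeval t : K[X] →ₐ[K] ↥(FK K N)).toRingHom.comp (mapRingHom (algebraMap (↥R) K))
    have hl : M ∈ lifts (mapRingHom (algebraMap (↥R) K)) := by
      rw [lifts_iff_coeff_lifts]
      intro i
      have h1 : M.coeff i ∈ lifts (algebraMap (↥R) K) := by
        rw [lifts_iff_coeff_lifts]
        intro k
        exact ⟨⟨_, hMR i k⟩, rfl⟩
      exact h1
    obtain ⟨M', hM', -, hM'm⟩ := lifts_and_natDegree_eq_and_monic hl hM
    have ha' : a.IsIntegralElem w := by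
      refine ⟨M', hM'm, ?_⟩
      rw [← hM', eval₂_map] at h0
      exact h0
    refine Fermat.Agent.S28.isIntegralElem_transfer a w ha'
      (algebraMap ↥(FK K N) (LaurentSeries K)) (cR (↥R) K) ?_
    have hcomp : (algebraMap ↥(FK K N) (LaurentSeries K)).comp a =
        (cR (↥R) K).comp (eval₂RingHom (algebraMap (↥R) (LaurentSeries (↥R))) tR) := by
      refine Polynomial.ringHom_ext (fun r => ?_) ?_
      · simp only [a, RingHom.comp_apply, coe_mapRingHom, map_C, coe_eval₂RingHom, eval₂_C,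
          AlgHom.toRingHom_eq_coe, RingHom.coe_coe, aeval_C]
        rw [Unique.cR_algebraMap, Unique.algebraMap_tower]
        rfl
      · simp only [a, RingHom.comp_apply, coe_mapRingHom, map_X, coe_eval₂RingHom, eval₂_X,
          AlgHom.toRingHom_eq_coe, RingHom.coe_coe, aeval_X]
        exact htR.symm
    intro c
    exact ⟨_, (congrArg (fun f => f c) hcomp).symm⟩
  obtain ⟨y, hy⟩ := Fermat.Agent.S28.mem_range_coeffMap_of_isIntegral (algebraMap (↥R) K)
    (IsFractionRing.injective (↥R) K) w.1 ya yb hyb0 (by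
      rw [hya, hyb]
      exact congrArg Subtype.val hwab) hint
  intro n
  rw [← hy, coeffMap_coeff]
  exact (y.coeff n).2

end Fermat.Agent.S19.RED.KA
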