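import Fermat.Agent.S18.V.UniqueDiv
import Fermat.Agent.S18.V.EmbJ
import Fermat.Agent.S18.VSide

set_option autoImplicit false
set_option linter.unusedSectionVars false
set_option linter.style.haveILetI false

/-!
# S19 / RED : (K2) the Gauss property in both charts `t = j`, `t = 1 / j`
-/

noncomputable section

namespace Fermat.Agent.S19.RED

open ModularCurve Polynomial IntermediateField
open Fermat.Agent.S18.V

variable {K : Type} [Field K] [CharZero K] (R : ValuationSubring K) [IsDiscreteValuationRing R]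
  {N : ℕ} [NeZero N]

theorem k2_incM_algebraMap (c : K) :
    incM (FK K N) (algebraMap K ↥(FK K N) c) = iotaK K c := by
  rw [incM_apply]
  rfl

theorem k2_mem_nonunits_iff (r : R) : (r : K) ∈ R.nonunits ↔ ¬ IsUnit r := by
  rw [ValuationSubring.mem_nonunits_iff_exists_mem_maximalIdeal]
  constructor
  · rintro ⟨_, h⟩
    exact (IsLocalRing.mem_maximalIdeal _).1 h
  · intro h
    exact ⟨r.2, (IsLocalRing.mem_maximalIdeal _).2 h⟩

theorem nonunit_const' (r : K) (hr : r ∈ R.nonunits) :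
    incM (FK K N) (algebraMap K ↥(FK K N) r) ∈ (gaussO R K).nonunits := by
  rw [k2_incM_algebraMap]
  obtain ⟨hrR, hm⟩ := ValuationSubring.mem_nonunits_iff_exists_mem_maximalIdeal.1 hr
  exact (vdata R K).map_nonunit ⟨r, hrR⟩ ((IsLocalRing.mem_maximalIdeal _).1 hm)

theorem k2_incM_aeval (t : ↥(FK K N)) (Q : K[X]) :
    incM (FK K N) (aeval t Q) = Q.eval₂ (iotaK K) (incM (FK K N) t) := by
  rw [aeval_def, hom_eval₂]
  rfl

theorem k2_gauss_j (Q : K[X]) (hQ : ∀ k, Q.coeff k ∈ R)
    (h : Q.eval₂ (iotaK K) (inc K (jqModC K)) ∈ (gaussO R K).nonunits) :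
    ∀ k, Q.coeff k ∈ R.nonunits := by
  have hl : Q ∈ lifts (algebraMap R K) := by
    rw [lifts_iff_coeff_lifts]
    intro n
    exact ⟨⟨_, hQ n⟩, rfl⟩
  obtain ⟨Q', rfl⟩ := (mem_lifts _).1 hl
  rw [eval₂_map] at h
  intro k
  have h1 := (isGauss_j R K).2 Q' h k
  rw [coeff_map]
  exact (k2_mem_nonunits_iff R _).2 h1

theorem gauss_chart' (t : ↥(FK K N)) (ht : t = jK K N ∨ t = (jK K N)⁻¹) (Q : K[X])
    (hQ : ∀ k, Q.coeff k ∈ R) (h : incM (FK K N) (aeval t Q) ∈ (gaussO R K).nonunits) :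
    ∀ k, Q.coeff k ∈ R.nonunits := by
  have hj : incM (FK K N) (jK K N) = inc K (jqModC K) := by
    rw [incM_apply]
    rfl
  rw [k2_incM_aeval] at h
  rcases ht with rfl | rfl
  · rw [hj] at h
    exact k2_gauss_j R Q hQ h
  · rw [map_inv₀, hj] at h
    have hj0 : inc K (jqModC K) ≠ 0 := by
      intro h0
      have h1 := (isGauss_j R K).2 (X : R[X]) (by
        rw [eval₂_X, h0]
        exact Fermat.Agent.S18.zero_mem_nonunits _) 1
      rw [coeff_X_one] at h1
      exact h1 isUnit_one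
    letI : Invertible (inc K (jqModC K))⁻¹ := invertibleOfNonzero (inv_ne_zero hj0)
    have h1 := eval₂_reverse_mul_pow (iotaK K) (inc K (jqModC K))⁻¹ Q
    rw [invOf_eq_inv, inv_inv] at h1
    have h2 : Q.reverse.eval₂ (iotaK K) (inc K (jqModC K))
        = Q.eval₂ (iotaK K) (inc K (jqModC K))⁻¹ * inc K (jqModC K) ^ Q.natDegree := by
      rw [← h1, mul_assoc, ← mul_pow, inv_mul_cancel₀ hj0, one_pow, mul_one]
    have h3 : Q.reverse.eval₂ (iotaK K) (inc K (jqModC K)) ∈ (gaussO R K).nonunits := by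
      rw [h2]
      exact Fermat.Agent.S18.mul_mem_nonunits' (gaussO R K) h (pow_mem (isGauss_j R K).1 _)
    have h4 := k2_gauss_j R Q.reverse (fun k => by rw [coeff_reverse]; exact hQ _) h3
    intro k
    have h5 := h4 (revAt Q.natDegree k)
    rwa [coeff_reverse, revAt_invol] at h5

end Fermat.Agent.S19.RED
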