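import Fermat.Agent.S19.RED.AL
import Fermat.Agent.S18.V.UniqueDiv
import Fermat.Agent.S18.V.EmbJ
import Fermat.Agent.S18.VSide

set_option autoImplicit false

/-!
# S19 / RED (K3) : all the conjugates of a Gauss-integral element lie in `gaussO`
-/

noncomputable section

namespace Fermat.Agent.S19.RED

open ModularCurve Polynomial IntermediateField
open Fermat.Agent.S18.V

variable {K : Type} [Field K] [CharZero K] (R : ValuationSubring K) [IsDiscreteValuationRing R]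
  {N : ℕ} [NeZero N] {ℓ : ℕ} [Fact ℓ.Prime]

theorem gaussHom_of_conj (σ : ↥(FK K N) →+* Om K)
    (hσK : ∀ c : K, σ (algebraMap K ↥(FK K N) c) = incM (FK K N) (algebraMap K ↥(FK K N) c))
    (hσj : σ (jK K N) = incM (FK K N) (jK K N)) : GaussHom R (gaussO R K) σ := by
  have hK : ∀ c : K, σ (algebraMap K ↥(FK K N) c) = iotaK K c := by
    intro c
    rw [hσK, incM_apply]
    rfl
  have hj : σ (jK K N) = inc K (jqModC K) := by
    rw [hσj, incM_apply]
    rfl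
  refine ⟨fun r => ?_, fun r hr => ?_, ?_, fun Q hQ => ?_⟩
  · rw [hK]
    exact (vdata R K).map_mem r
  · rw [hK]
    exact (vdata R K).map_nonunit r hr
  · rw [hj]
    exact (isGauss_j R K).1
  · rw [hj] at hQ
    have hc : σ.comp ((algebraMap K ↥(FK K N)).comp (algebraMap R K)) =
        (iotaK K).comp (algebraMap R K) := by
      ext r
      exact hK _
    rw [hc] at hQ
    exact (isGauss_j R K).2 Q hQ

theorem conj_mem (hℓR : ¬ IsUnit (ℓ : R)) (hℓN : ¬ ℓ ∣ N) (σ : ↥(FK K N) →+* Om K)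
    (hσK : ∀ c : K, σ (algebraMap K ↥(FK K N) c) = incM (FK K N) (algebraMap K ↥(FK K N) c))
    (hσj : σ (jK K N) = incM (FK K N) (jK K N)) (w a b : ↥(FK K N))
    (ha : ∀ n, a.1.coeff n ∈ R) (hb : ∀ n, b.1.coeff n ∈ R) (hb' : ∃ n, b.1.coeff n ∉ R.nonunits)
    (hwab : w * b = a) : σ w ∈ gaussO R K := by
  have hG := gaussHom_of_conj R σ hσK hσj
  obtain ⟨a₀, ha₀, -⟩ := Fermat.Agent.S18.VSide.exists_lift R a.1 ha
  obtain ⟨b₀, hb₀, hb₀'⟩ := Fermat.Agent.S18.VSide.exists_lift R b.1 hb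
  have haF : cR R K a₀ ∈ FK K N := ha₀ ▸ a.2
  have hbF : cR R K b₀ ∈ FK K N := hb₀ ▸ b.2
  have hb1 : ∃ n, IsUnit (b₀.coeff n) := by
    obtain ⟨n, hn⟩ := hb'
    exact ⟨n, (Fermat.Agent.S18.VSide.isUnit_iff R _).2 (by rw [hb₀']; exact hn)⟩
  have key := hG.div_mem hℓR hℓN a₀ b₀ haF hbF hb1
  have ea : (⟨cR R K a₀, haF⟩ : ↥(FK K N)) = a := Subtype.ext ha₀
  have eb : (⟨cR R K b₀, hbF⟩ : ↥(FK K N)) = b := Subtype.ext hb₀
  rw [ea, eb] at key
  have hb0 : b ≠ 0 := by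
    rintro rfl
    obtain ⟨n, hn⟩ := hb'
    apply hn
    rw [ValuationSubring.mem_nonunits_iff]
    simp
  have hσb : σ b ≠ 0 := (map_ne_zero σ).2 hb0
  have : σ w = σ a / σ b := by
    rw [eq_div_iff hσb, ← map_mul, hwab]
  rw [this]
  exact key

end Fermat.Agent.S19.RED
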