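import Fermat.Agent.S19.RED.AL
import Fermat.Agent.S19.RED.CoreKA
import Fermat.Agent.S19.RED.K2
import Fermat.Agent.S19.RED.K3

set_option autoImplicit false

/-!
# S19 / RED : the core over a number field `K`, `R ⊆ K` a discrete valuation ring over `ℓ ∤ N`
-/

noncomputable section

namespace Fermat.Agent.S19.RED

open ModularCurve Polynomial IntermediateField
open Fermat.Agent.S18.V
open scoped Polynomial.Bivariate

variable {K : Type} [Field K] [CharZero K] (R : ValuationSubring K) [IsDiscreteValuationRing R]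
  {N : ℕ} [NeZero N] {ℓ : ℕ} [Fact ℓ.Prime]

/-- the core over `K`. -/
theorem coreK (hℓR : ¬ IsUnit (ℓ : R)) (hℓN : ¬ ℓ ∣ N) (t w a b : ↥(FK K N))
    (ht : t = jK K N ∨ t = (jK K N)⁻¹)
    (ha : ∀ n, a.1.coeff n ∈ R) (hb : ∀ n, b.1.coeff n ∈ R) (hb' : ∃ n, b.1.coeff n ∉ R.nonunits)
    (hwab : w * b = a) (hI : ∃ M : K[X][Y], M.Monic ∧ aevalAeval t w M = 0) :
    (∃ M : K[X][Y], M.Monic ∧ (∀ i k, (M.coeff i).coeff k ∈ R) ∧ aevalAeval t w M = 0) ∧
      ∀ n, w.1.coeff n ∈ R := by
  have hj := KA.transcendental_jK K N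
  have htr : Transcendental K t := by
    rcases ht with rfl | rfl
    · exact hj
    · intro h
      apply hj
      have := h.inv
      rwa [inv_inv] at this
  have halg : Algebra.IsAlgebraic K⟮t⟯ ↥(FK K N) := by
    rcases ht with rfl | rfl
    · exact KA.isAlgebraic_FK R hℓR
    · have := KA.isAlgebraic_FK (N := N) R hℓR
      rw [Fermat.Agent.S24.principal_adjoin_inv_eq]
      exact this
  have hb0 : b ≠ 0 := by
    rintro rfl
    obtain ⟨n, hn⟩ := hb'
    apply hn
    rw [ValuationSubring.mem_nonunits_iff]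
    simp
  obtain ⟨M, hM, hMR, hM0⟩ := al R (gaussO R K) (incM (FK K N)) t w htr
    (exists_poly_of_isAlgebraic t halg) (nonunit_const' R) (gauss_chart' R t ht)
    (fun σ hσK hσt => conj_mem R hℓR hℓN σ hσK (by
      rcases ht with rfl | rfl
      · exact hσt
      · rw [map_inv₀, map_inv₀] at hσt
        exact inv_injective hσt) w a b ha hb hb' hwab) hI
  exact ⟨⟨M, hM, hMR, hM0⟩, KA.coeff_mem_of_monic R t w a b ht ha hb hb0 hwab M hM hMR hM0⟩

end Fermat.Agent.S19.RED
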