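import Fermat.Agent.DIV.Val

set_option autoImplicit false

/-!
# S19 / RED (a) : a function without poles at the places where `t` is finite is integral over `K[t]`

Set-up of `S24.SumOrd.exists_finset`: `B = integralClosure (Algebra.adjoin K {t}) F` is a Dedekind domain with
fraction field `F`; `IsDedekindDomain.HeightOneSpectrum.mem_integers_of_valuation_le_one`;
for `p : HeightOneSpectrum B` the place `Place.ofHeightOneSpectrum p` contains `t`
(`S24.ord_ofHeightOneSpectrum`: `ord f = - log (valuation f)`).
-/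

namespace Fermat.Agent.S19.RED

open AlgebraicCurve Fermat.Agent.S24 Fermat.Agent.DIV Polynomial
open scoped Polynomial.Bivariate

variable {K F : Type*} [Field K] [Field F] [Algebra K F] [IsAlgClosed K] [CharZero K]

section
open IsDedekindDomain WithZero IntermediateField
open scoped IntermediateField.algebraAdjoinAdjoin

theorem isIntegral_of_no_pole (h : IsFF1 K F) {t : F} (ht : Transcendental K t) (w : F)
    (hw : ∀ Z : Place K F, 0 ≤ Z.ord t → 0 ≤ Z.ord w) : IsIntegral (Algebra.adjoin K {t}) w := by
  have := SumOrd.isPrincipalIdealRing_adjoin ht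
  have := h.finiteDimensional ht
  have : IsDedekindDomain (integralClosure (Algebra.adjoin K {t}) F) :=
    integralClosure.isDedekindDomain (Algebra.adjoin K {t}) K⟮t⟯ F
  have : IsFractionRing (integralClosure (Algebra.adjoin K {t}) F) F :=
    integralClosure.isFractionRing_of_finite_extension K⟮t⟯ F
  have : IsScalarTower K (integralClosure (Algebra.adjoin K {t}) F) F :=
    IsScalarTower.of_algebraMap_eq (fun _ => rfl)
  by_cases hw0 : w = 0
  · rw [hw0]; exact isIntegral_zero
  have ht0 : t ≠ 0 := fun h0 => ht (h0 ▸ isAlgebraic_zero)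
  have key : ∀ v : HeightOneSpectrum (integralClosure (Algebra.adjoin K {t}) F),
      v.valuation F w ≤ 1 := by
    intro v
    have h1 : 0 ≤ (Place.ofHeightOneSpectrum (K := K) v).ord t := by
      have hmem : t ∈ (Place.ofHeightOneSpectrum (K := K) (F := F) v).toValuationSubring := by
        rw [Place.ofHeightOneSpectrum_toValuationSubring, Valuation.mem_valuationSubring_iff]
        exact v.valuation_le_one (K := F)
          (algebraMap (Algebra.adjoin K {t}) _ ⟨t, Algebra.self_mem_adjoin_singleton K t⟩)
      rw [ord_ofHeightOneSpectrum v ht0]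
      rw [Place.ofHeightOneSpectrum_toValuationSubring, Valuation.mem_valuationSubring_iff] at hmem
      have h0 := (Valuation.ne_zero_iff (v.valuation F)).mpr ht0
      have := (WithZero.log_le_log h0 one_ne_zero).mpr hmem
      rw [WithZero.log_one] at this
      omega
    have h2 := hw _ h1
    rw [ord_ofHeightOneSpectrum v hw0] at h2
    have h0 := (Valuation.ne_zero_iff (v.valuation F)).mpr hw0
    rw [← WithZero.log_le_log h0 one_ne_zero, WithZero.log_one]
    omega
  obtain ⟨b, hb⟩ := HeightOneSpectrum.mem_integers_of_valuation_le_one F w key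
  rw [← hb]
  exact b.2

end

omit [IsAlgClosed K] [CharZero K] in
/-- `aevalAeval` as an `eval₂`. -/
theorem aevalAeval_eq_eval₂ (x y : F) (Ψ : K[X][Y]) :
    aevalAeval x y Ψ = Ψ.eval₂ ((aeval x : K[X] →ₐ[K] F) : K[X] →+* F) y := by
  induction Ψ using Polynomial.induction_on with
  | C a => rw [aevalAeval_C, eval₂_C]; rfl
  | add p q hp hq => rw [map_add, hp, hq, eval₂_add]
  | monomial n a _ =>
    rw [map_mul, aevalAeval_C, map_pow, aevalAeval_Y, eval₂_mul, eval₂_C, eval₂_pow, eval₂_X]
    rfl

theorem exists_monic_of_no_pole (h : IsFF1 K F) {t : F} (ht : Transcendental K t) (w : F)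
    (hw : ∀ Z : Place K F, 0 ≤ Z.ord t → 0 ≤ Z.ord w) :
    ∃ M : K[X][Y], M.Monic ∧ aevalAeval t w M = 0 := by
  obtain ⟨p, hp, hp0⟩ := isIntegral_of_no_pole h ht w hw
  -- the surjection `K[X] → K[t]`
  let φ : K[X] →+* Algebra.adjoin K {t} :=
    ((aeval t : K[X] →ₐ[K] F).codRestrict (Algebra.adjoin K {t}) (fun q => by
      rw [Algebra.adjoin_singleton_eq_range_aeval]
      exact ⟨q, rfl⟩) : K[X] →+* Algebra.adjoin K {t})
  have hφ : Function.Surjective φ := by
    rintro ⟨x, hx⟩
    rw [Algebra.adjoin_singleton_eq_range_aeval] at hx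
    obtain ⟨q, hq⟩ := hx
    exact ⟨q, Subtype.ext hq⟩
  obtain ⟨M, hM1, -, hM2⟩ := lifts_and_natDegree_eq_and_monic (mem_lifts_of_surjective hφ p) hp
  refine ⟨M, hM2, ?_⟩
  rw [aevalAeval_eq_eval₂, ← hp0, ← hM1, eval₂_map]
  rfl

end Fermat.Agent.S19.RED
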