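import Fermat.Agent.S19.Defs
import Fermat.Agent.S19.RED.PoleInt
import Fermat.Agent.S19.RED.CoreK
import Fermat.Agent.S18.KPack
import Fermat.Agent.S18.B.DVR

set_option autoImplicit false

/-!
# S19 / RED : the core (`GInt` + integral over `ℚ̄[t]` ⟹ integral over `A[t]`, and `IntA`)
-/

namespace Fermat.Agent.S19.RED

open AlgebraicCurve ModularCurve Polynomial
open Fermat.Agent.S24 (Kb FN IsFF1 jF)
open Fermat.Agent.S18 (IntA SmallA toFN toFN_coe)
open Fermat.Agent.S18.V (FK jK)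
open scoped Polynomial.Bivariate

variable {N : ℕ} [NeZero N] {ℓ : ℕ}

section general

variable {K₁ K₂ F₁ F₂ : Type*} [Field K₁] [Field K₂] [Field F₁] [Field F₂] [Algebra K₁ F₁]
  [Algebra K₂ F₂] (ι : K₁ →+* K₂) (φ : F₁ →+* F₂)
  (h : ∀ r, φ (algebraMap K₁ F₁ r) = algebraMap K₂ F₂ (ι r))

include h in
theorem hom_aeval (t : F₁) (c : K₁[X]) : φ (aeval t c) = aeval (φ t) (c.map ι) := by
  induction c using Polynomial.induction_on with
  | C a => rw [aeval_C, Polynomial.map_C, aeval_C, h]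
  | add p q hp hq => rw [map_add, map_add, hp, hq, Polynomial.map_add, map_add]
  | monomial n a _ =>
    rw [map_mul, aeval_C, map_pow, aeval_X, map_mul, map_pow, h, Polynomial.map_mul,
      Polynomial.map_C, Polynomial.map_pow, Polynomial.map_X, map_mul, aeval_C, map_pow, aeval_X]

include h in
theorem hom_aevalAeval (t w : F₁) (M : K₁[X][Y]) :
    φ (aevalAeval t w M) = aevalAeval (φ t) (φ w) (M.map (mapRingHom ι)) := by
  induction M using Polynomial.induction_on with
  | C a => rw [aevalAeval_C, Polynomial.map_C, aevalAeval_C, hom_aeval ι φ h]; rfl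
  | add p q hp hq => rw [map_add, map_add, hp, hq, Polynomial.map_add, map_add]
  | monomial n a _ =>
    rw [map_mul, aevalAeval_C, map_pow, aevalAeval_Y, map_mul, map_pow, hom_aeval ι φ h,
      Polynomial.map_mul, Polynomial.map_C, Polynomial.map_pow, Polynomial.map_X, map_mul,
      aevalAeval_C, map_pow, aevalAeval_Y]
    rfl

end general

section transfer

variable {K : Type} [Field K] (ι : K →+* Kb)

theorem toFN_algebraMap (r : K) :
    toFN ι N (algebraMap K ↥(FK K N) r) = algebraMap Kb (FN N) (ι r) := by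
  apply Subtype.ext
  rw [toFN_coe]
  change coeffMap ι (algebraMap K (LaurentSeries K) r) = algebraMap Kb (LaurentSeries Kb) (ι r)
  rw [algebraMap_laurentSeries_eq_single, coeffMap_single, algebraMap_laurentSeries_eq_single]

theorem toFN_aevalAeval (t w : ↥(FK K N)) (M : K[X][Y]) :
    toFN ι N (aevalAeval t w M) =
      aevalAeval (toFN ι N t) (toFN ι N w) (M.map (mapRingHom ι)) :=
  hom_aevalAeval ι (toFN ι N) (toFN_algebraMap ι) t w M

theorem toFN_jK : toFN ι N (jK K N) = jF N := by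
  apply Subtype.ext
  rw [toFN_coe]
  change coeffMap ι (jqModC K) = Fermat.Agent.S24.Jser 1
  rw [coeffMap_jqModC, Fermat.Agent.S24.degree_Jser_one]

end transfer

/-- all the coefficients of a bivariate polynomial lie in a number field. -/
theorem exists_field_coeffs (M : Kb[X][Y]) :
    ∃ K₀ : IntermediateField ℚ Kb, FiniteDimensional ℚ K₀ ∧ ∀ i k, (M.coeff i).coeff k ∈ K₀ := by
  classical
  let S : Finset Kb := M.coeffs.biUnion (fun c => c.coeffs)
  refine ⟨IntermediateField.adjoin ℚ (S : Set Kb), ?_, fun i k => ?_⟩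
  · exact IntermediateField.finiteDimensional_adjoin
      (fun x _ => (AlgebraicClosure.isAlgebraic ℚ).isIntegral.isIntegral x)
  · by_cases h : (M.coeff i).coeff k = 0
    · rw [h]; exact zero_mem _
    · apply IntermediateField.subset_adjoin
      have h1 : M.coeff i ≠ 0 := by
        intro h0
        rw [h0, coeff_zero] at h
        exact h rfl
      exact Finset.mem_coe.2 (Finset.mem_biUnion.2
        ⟨M.coeff i, coeff_mem_coeffs h1, coeff_mem_coeffs h⟩)

theorem exists_lift_poly {K : Type} [Field K] (ι : K →+* Kb) (M : Kb[X][Y])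
    (h : ∀ i k, ∃ c : K, ι c = (M.coeff i).coeff k) :
    ∃ M₁ : K[X][Y], M₁.map (mapRingHom ι) = M := by
  rw [← Polynomial.mem_lifts, Polynomial.lifts_iff_coeff_lifts]
  intro i
  change M.coeff i ∈ Set.range (Polynomial.map ι)
  have : M.coeff i ∈ Polynomial.lifts ι := by
    rw [Polynomial.lifts_iff_coeff_lifts]
    exact fun k => h i k
  rw [Polynomial.mem_lifts] at this
  exact this

theorem core (hℓ : ℓ.Prime) (hℓN : ¬ ℓ ∣ N) (A : ValuationSubring Kb) (hA : A.LiesOverPrime ℓ)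
    (w t : FN N) (ht : t = jF N ∨ t = (jF N)⁻¹) (hw : GInt A w)
    (hpole : ∀ Z : Place Kb (FN N), 0 ≤ Z.ord t → 0 ≤ Z.ord w) :
    (∃ M : Kb[X][Y], M.Monic ∧ (∀ i k, (M.coeff i).coeff k ∈ A) ∧ aevalAeval t w M = 0) ∧
      IntA A w.1 := by
  obtain ⟨a, b, ha, hb, hb', hwab⟩ := hw
  have hj := Fermat.Agent.S24.transcendental_jF N
  have htr : Transcendental Kb t := by
    rcases ht with rfl | rfl
    · exact hj
    · intro h
      apply hj
      have := h.inv
      rwa [inv_inv] at this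
  obtain ⟨M₀, hM₀, hM₀0⟩ := exists_monic_of_no_pole (hFF N) htr w hpole
  obtain ⟨Ka, hKa, haG⟩ := Fermat.Agent.S18.KPack.exists_mem_G N a.1 a.2
  obtain ⟨Kb', hKb, hbG⟩ := Fermat.Agent.S18.KPack.exists_mem_G N b.1 b.2
  obtain ⟨Km, hKm, hmG⟩ := exists_field_coeffs M₀
  have f1 : FiniteDimensional ℚ ↥(Ka ⊔ Kb') := IntermediateField.finiteDimensional_sup _ _
  have f2 : FiniteDimensional ℚ ↥(Ka ⊔ Kb' ⊔ Km) := IntermediateField.finiteDimensional_sup _ _
  obtain ⟨K, fK, nfK, galK, ι, hι⟩ := Fermat.Agent.S18.KPack.exists_numberField (Ka ⊔ Kb' ⊔ Km) f2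
  obtain ⟨a', ha'⟩ := Fermat.Agent.S18.KPack.exists_descent N ι (Ka ⊔ Kb' ⊔ Km) hι a.1
    (Fermat.Agent.S18.KPack.G_mono N (le_sup_left.trans le_sup_left) haG)
  obtain ⟨b', hb''⟩ := Fermat.Agent.S18.KPack.exists_descent N ι (Ka ⊔ Kb' ⊔ Km) hι b.1
    (Fermat.Agent.S18.KPack.G_mono N (le_sup_right.trans le_sup_left) hbG)
  obtain ⟨M₁, hM₁⟩ := exists_lift_poly ι M₀ (fun i k => hι _ (le_sup_right (a := Ka ⊔ Kb') (hmG i k)))
  have hM₁m : M₁.Monic :=
    monic_of_injective (Polynomial.map_injective ι ι.injective) (by rw [hM₁]; exact hM₀)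
  have hta : toFN ι N a' = a := Subtype.ext ha'
  have htb : toFN ι N b' = b := Subtype.ext hb''
  have hb0 : b ≠ 0 := by
    rintro rfl
    refine hb' fun n => ?_
    rw [ValuationSubring.mem_nonunits_iff]
    simp
  have hb'0 : b' ≠ 0 := by
    rintro rfl
    exact hb0 (by rw [← htb, map_zero])
  have htw : toFN ι N (a' / b') = w := by
    rw [map_div₀, hta, htb, ← hwab, mul_div_cancel_right₀ _ hb0]
  obtain ⟨t', ht', htt⟩ : ∃ t' : ↥(FK K N), (t' = jK K N ∨ t' = (jK K N)⁻¹) ∧ toFN ι N t' = t := by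
    rcases ht with rfl | rfl
    · exact ⟨_, Or.inl rfl, toFN_jK ι⟩
    · exact ⟨_, Or.inr rfl, by rw [map_inv₀, toFN_jK]⟩
  haveI : IsDiscreteValuationRing (A.comap ι) := Fermat.Agent.S18.isDVR_comap ι A hℓ hA
  haveI : Fact ℓ.Prime := ⟨hℓ⟩
  have hℓR : ¬ IsUnit (ℓ : ↥(A.comap ι)) := by
    rw [Fermat.Agent.S18.VSide.isUnit_iff, not_not, Fermat.Agent.S18.DVR.mem_nonunits_comap]
    push_cast
    rw [map_natCast]
    exact hA
  have hI : aevalAeval t' (a' / b') M₁ = 0 := by
    apply (toFN ι N).injective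
    rw [toFN_aevalAeval, htt, htw, hM₁, hM₀0, map_zero]
  obtain ⟨⟨M, hM, hMR, hM0⟩, hint⟩ := coreK (A.comap ι) hℓR hℓN t' (a' / b') a' b' ht'
    (fun n => by
      change ι (a'.1.coeff n) ∈ A
      rw [← coeffMap_coeff, ha']
      exact ha n)
    (fun n => by
      change ι (b'.1.coeff n) ∈ A
      rw [← coeffMap_coeff, hb'']
      exact hb n)
    (by
      by_contra hcon
      push Not at hcon
      apply hb'
      intro n
      have := hcon n
      rw [Fermat.Agent.S18.DVR.mem_nonunits_comap, ← coeffMap_coeff, hb''] at this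
      exact this)
    (div_mul_cancel₀ _ hb'0) ⟨M₁, hM₁m, hI⟩
  refine ⟨⟨M.map (mapRingHom ι), hM.map _, fun i k => ?_, ?_⟩, fun n => ?_⟩
  · rw [coeff_map]
    change ((M.coeff i).map ι).coeff k ∈ A
    rw [coeff_map]
    exact hMR i k
  · rw [← htt, ← htw, ← toFN_aevalAeval, hM0, map_zero]
  · rw [← htw, toFN_coe, coeffMap_coeff]
    exact hint n

end Fermat.Agent.S19.RED
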