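import Fermat.Agent.S18.V.UniqueDiv
import Fermat.Agent.S18.V.EmbJ
import Fermat.Agent.S18.VSide
import Fermat.Agent.S18.B.Trans

set_option autoImplicit false
set_option linter.unusedSectionVars false

/-!
# S19 / RED : leaves (K0), (K1)
-/

noncomputable section

namespace Fermat.Agent.S19.RED

open ModularCurve Polynomial IntermediateField
open Fermat.Agent.S18.V

/-- (K0) `j = q⁻¹ + ⋯` is not constant. -/
theorem transcendental_jK' (K : Type) [Field K] (N : ℕ) : Transcendental K (jK K N) := by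
  intro h
  have h1 : IsAlgebraic K ((jK K N : ↥(FK K N)) : LaurentSeries K) := by
    have := h.algebraMap (A := LaurentSeries K)
    exact this
  obtain ⟨c, hc⟩ := Fermat.Agent.S18.trans_const _ h1
  have h2 : (jqModC K).order = -1 := EmbJ.order_jqModC K
  have h3 : algebraMap K (LaurentSeries K) c = jqModC K := hc
  rw [← h3, algebraMap_laurentSeries_eq_single] at h2
  by_cases hc0 : c = 0
  · rw [hc0, HahnSeries.single_eq_zero, HahnSeries.order_zero] at h2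
    omega
  · rw [HahnSeries.order_single hc0] at h2
    omega

variable {K : Type} [Field K] [CharZero K] (R : ValuationSubring K) [IsDiscreteValuationRing R]
  {N : ℕ} [NeZero N] {ℓ : ℕ} [Fact ℓ.Prime]

theorem evF_mem_adjoin (Q : (↥R)[X]) : Unique.evF R K N Q ∈ K⟮jK K N⟯ := by
  rw [Unique.evF, coe_eval₂RingHom, eval₂_eq_sum_range]
  exact sum_mem fun k _ => mul_mem (IntermediateField.algebraMap_mem _ _)
    (pow_mem (mem_adjoin_simple_self K _) _)

/-- `R[X] → K(j)`. -/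
def evE (N : ℕ) [NeZero N] : (↥R)[X] →+* K⟮jK K N⟯ :=
  (Unique.evF R K N).codRestrict K⟮jK K N⟯.toSubring (evF_mem_adjoin R)

theorem algebraMap_comp_evE :
    (algebraMap K⟮jK K N⟯ ↥(FK K N)).comp (evE R N) = Unique.evF R K N := by
  ext <;> rfl

theorem isAlgebraic_of_mem_BR (hℓR : ¬ IsUnit (ℓ : R)) {f : LaurentSeries K}
    (hf : f ∈ BR R K N ℓ) : IsAlgebraic K⟮jK K N⟯ (⟨f, BR_le_FK hf⟩ : ↥(FK K N)) := by
  obtain ⟨P, hP, hPf⟩ := BR_integral (N := N) hℓR hf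
  have h0 : eval₂ (Unique.evF R K N) (⟨f, BR_le_FK hf⟩ : ↥(FK K N)) P = 0 := by
    apply Subtype.ext
    have h1 := hom_eval₂ P (Unique.evF R K N) (algebraMap ↥(FK K N) (LaurentSeries K))
      ⟨f, BR_le_FK hf⟩
    rw [Unique.val_comp_evF] at h1
    exact h1.trans hPf
  have h1 : (Unique.evF R K N).IsIntegralElem (⟨f, BR_le_FK hf⟩ : ↥(FK K N)) := ⟨P, hP, h0⟩
  rw [← algebraMap_comp_evE] at h1
  have h2 : IsIntegral K⟮jK K N⟯ (⟨f, BR_le_FK hf⟩ : ↥(FK K N)) := h1.of_comp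
  exact h2.isAlgebraic

/-- (K1) `F_K` is algebraic over `K(j)`. -/
theorem isAlgebraic_FK' (hℓR : ¬ IsUnit (ℓ : R)) : Algebra.IsAlgebraic K⟮jK K N⟯ ↥(FK K N) := by
  constructor
  rintro ⟨y, hy⟩
  obtain ⟨c, hc, d, hd, hd0, h⟩ := BR_frac (R := R) (ℓ := ℓ) hy
  have h1 := isAlgebraic_of_mem_BR R hℓR hc
  have h2 := isAlgebraic_of_mem_BR R hℓR hd
  have hd0' : (⟨d, BR_le_FK hd⟩ : ↥(FK K N)) ≠ 0 := fun h0 => hd0 (congrArg Subtype.val h0)
  have h3 : (⟨y, hy⟩ : ↥(FK K N)) = ⟨c, BR_le_FK hc⟩ * (⟨d, BR_le_FK hd⟩ : ↥(FK K N))⁻¹ := by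
    rw [eq_mul_inv_iff_mul_eq₀ hd0']
    exact Subtype.ext h
  rw [h3]
  exact h1.mul h2.inv

end Fermat.Agent.S19.RED
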